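import Fermat.Agent.Gam0.Index

/-!
# Eigenspaces of a permutation acting on functions
-/

set_option autoImplicit false

namespace Fermat.Agent.Genus

open Fermat.Agent.Gam0

section

variable {G Y : Type*} [Group G] [MulAction G Y]

/-- Functions `v : Y → ℂ` with `v (γ • y) = c * v y`. -/
def eig (γ : G) (c : ℂ) : Submodule ℂ (Y → ℂ) where
  carrier := {v | ∀ y, v (γ • y) = c * v y}
  add_mem' {a b} ha hb y := by
    simp only [Set.mem_ofPred_eq] at ha hb
    simp [ha y, hb y, mul_add]
  zero_mem' y := by simp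
  smul_mem' r v hv y := by
    simp only [Set.mem_ofPred_eq] at hv
    simp [hv y]; ring

lemma mem_eig {γ : G} {c : ℂ} {v : Y → ℂ} : v ∈ eig γ c ↔ ∀ y, v (γ • y) = c * v y := Iff.rfl

lemma eig_zpow {γ : G} {c : ℂ} (hc : c ≠ 0) {v : Y → ℂ} (hv : v ∈ eig γ c) (n : ℤ) (y : Y) :
    v (γ ^ n • y) = c ^ n * v y := by
  induction n using Int.induction_on with
  | zero => simp
  | succ n ih =>
    rw [add_comm, zpow_add, mul_smul, zpow_one, mem_eig.mp hv, ih, zpow_add₀ hc, zpow_one, mul_assoc]
  | pred n ih =>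
    have h1 : v (γ ^ (-(n : ℤ)) • y) = c * v (γ ^ (-(n : ℤ) - 1) • y) := by
      rw [← mem_eig.mp hv, ← mul_smul, ← zpow_one_add]
      congr 3
      ring
    rw [ih] at h1
    rw [zpow_sub₀ hc, zpow_one, div_mul_eq_mul_div, h1, mul_div_cancel_left₀ _ hc]

variable [Finite Y]

theorem finrank_eig_le (γ : G) (c : ℂ) (hc : c ≠ 0) :
    Module.finrank ℂ (eig (Y := Y) γ c) ≤
      Nat.card (MulAction.orbitRel.Quotient (Subgroup.zpowers γ) Y) := by
  classical
  have : Finite (MulAction.orbitRel.Quotient (Subgroup.zpowers γ) Y) := Quotient.finite _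
  have := Fintype.ofFinite (MulAction.orbitRel.Quotient (Subgroup.zpowers γ) Y)
  let L : eig (Y := Y) γ c →ₗ[ℂ] (MulAction.orbitRel.Quotient (Subgroup.zpowers γ) Y → ℂ) :=
    { toFun := fun v ω => v.1 ω.out
      map_add' := fun _ _ => rfl
      map_smul' := fun _ _ => rfl }
  have hL : Function.Injective L := by
    rw [← LinearMap.ker_eq_bot, LinearMap.ker_eq_bot']
    rintro ⟨v, hv⟩ h0
    apply Subtype.ext
    funext y
    have hmem : y ∈ MulAction.orbit (Subgroup.zpowers γ)
        ((Quotient.mk (MulAction.orbitRel (Subgroup.zpowers γ) Y) y).out) :=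
      MulAction.orbitRel_apply.mp
        ((MulAction.orbitRel (Subgroup.zpowers γ) Y).symm (Quotient.mk_out y))
    obtain ⟨⟨g, n, rfl⟩, hg⟩ := hmem
    have hg' : γ ^ n • ((Quotient.mk (MulAction.orbitRel (Subgroup.zpowers γ) Y) y).out) = y := hg
    have h1 := congrFun h0 (Quotient.mk (MulAction.orbitRel (Subgroup.zpowers γ) Y) y)
    have h2 : v ((Quotient.mk (MulAction.orbitRel (Subgroup.zpowers γ) Y) y).out) = 0 := h1
    show v y = 0
    rw [← hg', eig_zpow hc hv, h2, mul_zero]
  have := LinearMap.finrank_le_finrank_of_injective hL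
  rwa [Module.finrank_fintype_fun_eq_card, ← Nat.card_eq_fintype_card] at this

theorem finrank_eig_add_le (γ : G) (c : ℂ) (hc : c ≠ 0) (hc1 : c ≠ 1) :
    Module.finrank ℂ (eig (Y := Y) γ c) + Nat.card {y : Y // γ • y = y} ≤
      Nat.card (MulAction.orbitRel.Quotient (Subgroup.zpowers γ) Y) := by
  classical
  have := Fintype.ofFinite Y
  set Ω := MulAction.orbitRel.Quotient (Subgroup.zpowers γ) Y with hΩ
  have : Finite Ω := Quotient.finite _
  have := Fintype.ofFinite Ω
  let Ω' := {ω : Ω // ¬ γ • ω.out = ω.out}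
  let L : eig (Y := Y) γ c →ₗ[ℂ] (Ω' → ℂ) :=
    { toFun := fun v ω => v.1 ω.1.out
      map_add' := fun _ _ => rfl
      map_smul' := fun _ _ => rfl }
  have hL : Function.Injective L := by
    rw [← LinearMap.ker_eq_bot, LinearMap.ker_eq_bot']
    rintro ⟨v, hv⟩ h0
    apply Subtype.ext
    funext y
    set ω : Ω := Quotient.mk (MulAction.orbitRel (Subgroup.zpowers γ) Y) y with hω
    have hmem : y ∈ MulAction.orbit (Subgroup.zpowers γ) ω.out :=
      MulAction.orbitRel_apply.mp
        ((MulAction.orbitRel (Subgroup.zpowers γ) Y).symm (Quotient.mk_out y))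
    obtain ⟨⟨g, n, rfl⟩, hg⟩ := hmem
    have hg' : γ ^ n • ω.out = y := hg
    have h2 : v ω.out = 0 := by
      by_cases hfix : γ • ω.out = ω.out
      · have h3 := mem_eig.mp hv ω.out
        rw [hfix] at h3
        have h4 : (c - 1) * v ω.out = 0 := by linear_combination -h3
        exact (mul_eq_zero.mp h4).resolve_left (sub_ne_zero.mpr hc1)
      · exact congrFun h0 ⟨ω, hfix⟩
    show v y = 0
    rw [← hg', eig_zpow hc hv, h2, mul_zero]
  have h1 := LinearMap.finrank_le_finrank_of_injective hL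
  rw [Module.finrank_fintype_fun_eq_card, ← Nat.card_eq_fintype_card] at h1
  -- count
  have hfix : Nat.card {y : Y // γ • y = y} = Nat.card {ω : Ω // γ • ω.out = ω.out} := by
    let e : {ω : Ω // γ • ω.out = ω.out} → {y : Y // γ • y = y} := fun ω => ⟨ω.1.out, ω.2⟩
    have he : Function.Bijective e := by
      constructor
      · rintro ⟨ω, h⟩ ⟨ω', h'⟩ heq
        simp only [e, Subtype.mk.injEq] at heq
        have := congrArg (Quotient.mk (MulAction.orbitRel (Subgroup.zpowers γ) Y)) heq
        simpa using this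
      · rintro ⟨y, hy⟩
        let ω : Ω := Quotient.mk _ y
        have hmem : ω.out ∈ MulAction.orbit (Subgroup.zpowers γ) y :=
          MulAction.orbitRel_apply.mp (Quotient.mk_out y)
        have hout : ω.out = y := by
          obtain ⟨⟨g, n, rfl⟩, hg⟩ := hmem
          rw [← hg]
          exact MulAction.mem_fixedBy_zpow (α := Y) hy n
        refine ⟨⟨ω, ?_⟩, ?_⟩
        · rw [hout, hy]
        · apply Subtype.ext
          exact hout
    exact (Nat.card_congr (Equiv.ofBijective e he)).symm
  have hsum : Nat.card Ω = Nat.card {ω : Ω // γ • ω.out = ω.out} + Nat.card Ω' := by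
    rw [Nat.card_eq_fintype_card, Nat.card_eq_fintype_card, Nat.card_eq_fintype_card,
      Fintype.card_subtype_compl]
    have := Fintype.card_subtype_le (fun ω : Ω => γ • ω.out = ω.out)
    omega
  omega

end

end Fermat.Agent.Genus
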