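import Fermat.Agent.Genus.Final
import Fermat.Agent.GenusLB.EigBasis

/-!
# The lower bound for `dim S₂(Γ₀(N))`, S20 and S21
-/

set_option autoImplicit false

open UpperHalfPlane CongruenceSubgroup
open scoped MatrixGroups

namespace Fermat.Agent.Genus

open Fermat.Agent.Gam0

theorem lb (N : ℕ) [NeZero N] :
    (Nat.card (SL(2, ℤ) ⧸ Gamma0 N) : ℤ) + 2
      - Nat.card (MulAction.orbitRel.Quotient (Subgroup.zpowers ModularGroup.S)
          (SL(2, ℤ) ⧸ Gamma0 N))
      - Nat.card (MulAction.orbitRel.Quotient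
          (Subgroup.zpowers (ModularGroup.S * ModularGroup.T)) (SL(2, ℤ) ⧸ Gamma0 N))
      - Nat.card (MulAction.orbitRel.Quotient (Subgroup.zpowers ModularGroup.T)
          (SL(2, ℤ) ⧸ Gamma0 N))
      ≤ 2 * Module.finrank ℂ (CuspForm (Gamma0 N) 2) := by
  classical
  have : Fintype (Gam0.X N) := Fintype.ofFinite _
  obtain ⟨k₀, f₀, hf₀, hτ⟩ := exists_tuple N
  obtain ⟨k, f, hf, hk, hdet, hsum⟩ := GenusLB.exists_good_tuple (X := Gam0.X N) neg_one_smul
    ⟨k₀, f₀, hf₀, hτ⟩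
  exact lb_of_tuple k f hf hk hdet hsum

/-- S20 -/
theorem finrank_cuspForm_eq (N : ℕ) [NeZero N] :
    (Module.finrank ℂ (CuspForm (CongruenceSubgroup.Gamma0 N) 2) : ℚ) =
      ModularCurve.genusFormula N :=
  dim_eq_of_lb N (lb N)

/-- S21 -/
theorem eichlerShimura (N : ℕ) [NeZero N] :
    Function.Injective (ModularCurve.periodHomPair N)
      ∧ LinearMap.range (ModularCurve.periodHomPair N)
          = ModularCurve.Period.parabolicHoms ℂ (CongruenceSubgroup.Gamma0 N) ℂ := by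
  refine Period.eichlerShimura_of_lower_bound N ?_
  have h1 := lb N
  have e1 : Period.orb ModularGroup.S (SL(2, ℤ) ⧸ Gamma0 N) =
    Nat.card (MulAction.orbitRel.Quotient (Subgroup.zpowers ModularGroup.S)
          (SL(2, ℤ) ⧸ Gamma0 N)) := rfl
  have e2 : Period.orb (ModularGroup.S * ModularGroup.T) (SL(2, ℤ) ⧸ Gamma0 N) =
    Nat.card (MulAction.orbitRel.Quotient (Subgroup.zpowers (ModularGroup.S * ModularGroup.T))
          (SL(2, ℤ) ⧸ Gamma0 N)) := rfl
  have e3 : Period.orb ModularGroup.T (SL(2, ℤ) ⧸ Gamma0 N) =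
    Nat.card (MulAction.orbitRel.Quotient (Subgroup.zpowers ModularGroup.T)
          (SL(2, ℤ) ⧸ Gamma0 N)) := rfl
  rw [e1, e2, e3]
  omega

end Fermat.Agent.Genus
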