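import Mathlib

/-!
# Numerical part of the lower bound
-/

set_option autoImplicit false

namespace Fermat.Agent.Genus

theorem numerics {J : Type*} [Fintype J] (n s t c : ℕ) (k : J → ℤ)
    (hJ : Fintype.card J = n) (hk0 : ∀ j, 0 ≤ k j) (heven : ∀ j, Even (k j))
    (h4 : (Finset.univ.filter fun j => k j % 4 = 0).card ≤ s)
    (h60 : (Finset.univ.filter fun j => k j % 6 = 0).card ≤ t)
    (h64 : 2 * (Finset.univ.filter fun j => k j % 6 = 4).card + t ≤ n)
    (hsum : ∑ j, k j + 6 * c ≤ 6 * n) :
    n + c ≤ s + t + 2 * (Finset.univ.filter fun j => k j = 2).card := by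
  classical
  have key : ∀ j, (12 : ℤ) ≤ k j + 6 * (if k j % 6 = 0 then 1 else 0)
      + 6 * (if k j % 4 = 0 then 1 else 0)
      - 2 * ((if k j % 6 = 2 then 1 else 0) - (if k j % 6 = 4 then 1 else 0))
      + 12 * (if k j = 2 then 1 else 0) := by
    intro j
    obtain ⟨m, hm⟩ := heven j
    have h0 := hk0 j
    split_ifs <;> omega
  have hs := Finset.sum_le_sum (s := Finset.univ) fun j _ => key j
  simp only [Finset.sum_add_distrib, Finset.sum_sub_distrib, ← Finset.mul_sum, Finset.sum_boole,
    Finset.sum_const, Finset.card_univ, hJ, nsmul_eq_mul] at hs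
  have h3 : (Finset.univ.filter fun j => k j % 6 = 0).card
      + (Finset.univ.filter fun j => k j % 6 = 2).card
      + (Finset.univ.filter fun j => k j % 6 = 4).card = n := by
    rw [← hJ, ← Finset.card_univ]
    simp only [Finset.card_filter]
    rw [← Finset.sum_add_distrib, ← Finset.sum_add_distrib, Finset.card_eq_sum_ones]
    refine Finset.sum_congr rfl fun j _ => ?_
    obtain ⟨m, hm⟩ := heven j
    split_ifs <;> omega
  omega

end Fermat.Agent.Genus
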