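import Fermat.Agent.GenusLB.XForm
import Fermat.Agent.IntStr.Trace
import Fermat.Agent.Genus.Eig
import Fermat.Agent.Genus.Numerics
import Fermat.Agent.Eigenform.QCoeff
import Fermat.Prelude.Thm_ModularForm_sturm_bound_Gamma0

/-!
# Constant terms of weight two `X`-forms and cusp forms
-/

set_option autoImplicit false

open UpperHalfPlane ModularForm ModularFormClass MatrixGroups EisensteinSeries Filter
open Matrix.SpecialLinearGroup CongruenceSubgroup
open scoped Manifold MatrixGroups ModularForm Topology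

namespace Fermat.Agent.Genus

open Fermat.Agent.LevelOne Fermat.Agent.GenusLB Fermat.Agent.Gam0 Fermat.Agent.IntStr

noncomputable section

section General

variable {X : Type} [MulAction SL(2, ℤ) X] {k l : ℤ} {F G : X → ℍ → ℂ}

theorem exists_T_pow_smul [Finite X] (x : X) :
    ∃ M : ℕ, 0 < M ∧ (ModularGroup.T ^ M : SL(2, ℤ))⁻¹ • x = x := by
  obtain ⟨a, b, hab, h⟩ := Finite.exists_ne_map_eq_of_infinite
    (fun n : ℕ => (ModularGroup.T ^ n : SL(2, ℤ)) • x)
  wlog hlt : a < b generalizing a b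
  · exact this b a hab.symm h.symm (lt_of_le_of_ne (not_lt.mp hlt) hab.symm)
  refine ⟨b - a, by omega, ?_⟩
  rw [inv_smul_eq_iff]
  have h1 : (ModularGroup.T ^ b : SL(2, ℤ)) = ModularGroup.T ^ a * ModularGroup.T ^ (b - a) := by
    rw [← pow_add]; congr 1; omega
  rw [h1, mul_smul] at h
  exact smul_left_cancel _ h

theorem periodic_of_isXForm [Finite X] (hF : IsXForm k F) (x : X) :
    ∃ M : ℕ, 0 < M ∧ Function.Periodic (F x ∘ ofComplex) (M : ℝ) := by
  obtain ⟨M, hM, h⟩ := exists_T_pow_smul x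
  refine ⟨M, hM, periodic_of_slash_T_pow (k := k) ?_⟩
  rw [hF.slash, h]

theorem tendsto_valueAtInfty [Finite X] (hF : IsXForm k F) (x : X) :
    Tendsto (F x) atImInfty (𝓝 (valueAtInfty (F x))) := by
  obtain ⟨M, hM, hper⟩ := periodic_of_isXForm hF x
  have hM' : (0 : ℝ) < M := by exact_mod_cast hM
  have h1 := UpperHalfPlane.exp_decay_sub_atImInfty hM' hper (hF.mdiff x) (hF.bdd x)
  have h2 : Tendsto (fun τ : ℍ => Real.exp (-2 * Real.pi * τ.im / M)) atImInfty (𝓝 0) := by
    have h3 : Tendsto (fun τ : ℍ => τ.im) atImInfty atTop := tendsto_comap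
    apply Real.tendsto_exp_atBot.comp
    have h4 : (fun τ : ℍ => -2 * Real.pi * τ.im / M) = fun τ : ℍ => (-(2 * Real.pi / M)) * τ.im := by
      funext τ; ring
    rw [h4]
    exact h3.const_mul_atTop_of_neg (by
      have : 0 < 2 * Real.pi / M := by positivity
      linarith)
  have h5 := h1.trans_tendsto h2
  have h6 := h5.add_const (valueAtInfty (F x))
  simpa using h6

theorem T_vadd_eq (τ : ℍ) : (ModularGroup.T : SL(2, ℤ)) • τ = (1 : ℝ) +ᵥ τ :=
  UpperHalfPlane.modular_T_smul τ

theorem valueAtInfty_T [Finite X] (hF : IsXForm k F) (x : X) :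
    valueAtInfty (F (ModularGroup.T • x)) = valueAtInfty (F x) := by
  have h1 := hF.slash ModularGroup.T (ModularGroup.T • x)
  rw [inv_smul_smul] at h1
  -- `F x τ = F (T x) (τ + 1)`
  have h2 : ∀ τ : ℍ, F x τ = F (ModularGroup.T • x) ((1 : ℝ) +ᵥ τ) := by
    intro τ
    have h3 := congrFun h1 τ
    rw [SL_slash_apply, ModularGroup.denom_apply] at h3
    rw [← h3, T_vadd_eq]
    simp [ModularGroup.T]
  have h4 : Tendsto (fun τ : ℍ => (1 : ℝ) +ᵥ τ) atImInfty atImInfty := by
    rw [atImInfty, tendsto_comap_iff]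
    have : (UpperHalfPlane.im ∘ fun τ : ℍ => (1 : ℝ) +ᵥ τ) = UpperHalfPlane.im := by
      funext τ; simp
    rw [this]
    exact tendsto_comap
  have h5 := (tendsto_valueAtInfty hF (ModularGroup.T • x)).comp h4
  have h6 : (F (ModularGroup.T • x) ∘ fun τ : ℍ => (1 : ℝ) +ᵥ τ) = F x := by
    funext τ; exact (h2 τ).symm
  rw [h6] at h5
  exact tendsto_nhds_unique h5 (tendsto_valueAtInfty hF x)

/-- The submodule of weight `k` `X`-forms. -/
def XF (X : Type) [MulAction SL(2, ℤ) X] (k : ℤ) : Submodule ℂ (X → ℍ → ℂ) where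
  carrier := {F | IsXForm k F}
  add_mem' hF hG := IsXForm.add hF hG
  zero_mem' := isXForm_zero k
  smul_mem' c _ hF := IsXForm.smul c hF

theorem mem_XF {F : X → ℍ → ℂ} : F ∈ XF X k ↔ IsXForm k F := Iff.rfl

/-- The constant terms, as a linear map. -/
def constTerm (X : Type) [MulAction SL(2, ℤ) X] [Finite X] (k : ℤ) : XF X k →ₗ[ℂ] (X → ℂ) where
  toFun F x := valueAtInfty (F.1 x)
  map_add' F G := by
    funext x
    have h1 := tendsto_valueAtInfty F.2 x
    have h2 := tendsto_valueAtInfty G.2 x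
    have h3 := tendsto_valueAtInfty (F + G).2 x
    exact tendsto_nhds_unique h3 (h1.add h2)
  map_smul' c F := by
    funext x
    have h1 := tendsto_valueAtInfty F.2 x
    have h3 := tendsto_valueAtInfty (c • F).2 x
    exact tendsto_nhds_unique h3 (h1.const_smul c)

theorem constTerm_apply [Finite X] (F : XF X k) (x : X) :
    constTerm X k F x = valueAtInfty (F.1 x) := rfl

theorem constTerm_mem_eig [Finite X] (F : XF X k) :
    constTerm X k F ∈ eig (Y := X) (ModularGroup.T : SL(2, ℤ)) 1 := by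
  rw [mem_eig]
  intro x
  rw [one_mul]
  exact valueAtInfty_T F.2 x

theorem isLevelOne_two_eq_zero {f : ℍ → ℂ} (hf : IsLevelOne 2 f) : f = 0 := by
  have h := rank_zero_iff_forall_zero.mp ModularForm.levelOne_weight_two_rank_zero
    hf.toModularForm
  rw [← hf.coe_toModularForm, h]; rfl

theorem sum_constTerm [Fintype X] (F : XF X 2) : ∑ x, constTerm X 2 F x = 0 := by
  have h0 : (∑ x, F.1 x) = 0 := isLevelOne_two_eq_zero F.2.trace
  have h1 : Tendsto (fun τ => ∑ x, F.1 x τ) atImInfty (𝓝 (∑ x, constTerm X 2 F x)) :=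
    tendsto_finsetSum _ fun x _ => tendsto_valueAtInfty F.2 x
  have h2 : (fun τ => ∑ x, F.1 x τ) = fun _ => 0 := by
    funext τ
    have := congrFun h0 τ
    rwa [Finset.sum_apply] at this
  rw [h2] at h1
  exact tendsto_nhds_unique h1 tendsto_const_nhds |>.symm ▸ rfl

/-- The range of the constant term map in weight two has dimension less than the number of
`T`-orbits. -/
theorem finrank_range_constTerm_lt [Fintype X] [Nonempty X] :
    Module.finrank ℂ (LinearMap.range (constTerm X 2)) <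
      Nat.card (MulAction.orbitRel.Quotient (Subgroup.zpowers (ModularGroup.T : SL(2, ℤ))) X) := by
  refine lt_of_lt_of_le ?_ (finrank_eig_le (Y := X) (ModularGroup.T : SL(2, ℤ)) 1 one_ne_zero)
  apply Submodule.finrank_lt_finrank_of_lt
  refine lt_of_le_of_ne ?_ ?_
  · rintro _ ⟨F, rfl⟩
    exact constTerm_mem_eig F
  · intro h
    have h1 : (fun _ => 1 : X → ℂ) ∈ eig (Y := X) (ModularGroup.T : SL(2, ℤ)) 1 := by
      rw [mem_eig]; intro; simp
    rw [← h] at h1
    obtain ⟨F, hF⟩ := h1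
    have h2 := sum_constTerm F
    rw [hF] at h2
    simp at h2

end General

section Gamma0

variable {N : ℕ} [NeZero N]

local notation "x₀" => (QuotientGroup.mk (1 : SL(2, ℤ)) : Gam0.X N)

omit [NeZero N] in
theorem slash_base {k : ℤ} {F : Gam0.X N → ℍ → ℂ} (hF : IsXForm k F) (γ : SL(2, ℤ)) :
    F x₀ ∣[k] γ = F (QuotientGroup.mk γ⁻¹ : Gam0.X N) := by
  rw [hF.slash, smul_mk, mul_one]

/-- A weight `k` `X`-form whose constant terms vanish gives a cusp form on `Γ₀(N)`. -/
def toCuspForm {k : ℤ} (F : XF (Gam0.X N) k) (h0 : constTerm (Gam0.X N) k F = 0) :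
    CuspForm (Gamma0 N) k where
  toFun := F.1 x₀
  slash_action_eq' := by
    rintro _ ⟨γ, hγ, rfl⟩
    have h1 := slash_base F.2 γ
    have h2 : (QuotientGroup.mk γ⁻¹ : Gam0.X N) = x₀ := by
      rw [QuotientGroup.eq, inv_inv, mul_one]
      exact hγ
    rw [h2] at h1
    exact h1
  holo' := F.2.mdiff _
  zero_at_cusps' {c} hc := by
    rw [Subgroup.IsArithmetic.isCusp_iff_isCusp_SL2Z] at hc
    rw [OnePoint.isZeroAt_iff_forall_SL2Z hc]
    intro γ _
    rw [slash_base F.2 γ]
    have h1 := tendsto_valueAtInfty F.2 (QuotientGroup.mk γ⁻¹ : Gam0.X N)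
    have h2 : valueAtInfty (F.1 (QuotientGroup.mk γ⁻¹ : Gam0.X N)) = 0 := congrFun h0 _
    rw [h2] at h1
    exact h1

@[simp] theorem toCuspForm_coe {k : ℤ} (F : XF (Gam0.X N) k)
    (h0 : constTerm (Gam0.X N) k F = 0) : ⇑(toCuspForm F h0) = F.1 x₀ := rfl

/-- the linear version of `toCuspForm` -/
def toCuspFormLin (N : ℕ) [NeZero N] (k : ℤ) :
    LinearMap.ker (constTerm (Gam0.X N) k) →ₗ[ℂ] CuspForm (Gamma0 N) k where
  toFun F := toCuspForm F.1 (LinearMap.mem_ker.mp F.2)
  map_add' F G := by ext τ; rfl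
  map_smul' c F := by ext τ; rfl

instance : MulAction.IsPretransitive SL(2, ℤ) (Gam0.X N) := by
  constructor
  intro x y
  induction x using QuotientGroup.induction_on with
  | H g =>
    induction y using QuotientGroup.induction_on with
    | H h => exact ⟨h * g⁻¹, by rw [smul_mk, inv_mul_cancel_right]⟩

theorem toCuspFormLin_injective (k : ℤ) : Function.Injective (toCuspFormLin N k) := by
  rw [injective_iff_map_eq_zero]
  rintro ⟨⟨F, hF⟩, h⟩ h0
  have h1 : F x₀ = 0 := by
    have := congrArg (fun f : CuspForm (Gamma0 N) k => (f : ℍ → ℂ)) h0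
    exact this
  have h2 : F = 0 := hF.eq_zero_of_apply_eq_zero h1
  apply Subtype.ext
  apply Subtype.ext
  exact h2

/-- finite dimensionality from the Sturm bound -/
instance finiteDimensional_cuspForm (N : ℕ) [NeZero N] (k : ℤ) :
    FiniteDimensional ℂ (CuspForm (Gamma0 N) k) := by
  let B : ℕ := (k * (Gamma0 N).index).toNat / 12
  let L : CuspForm (Gamma0 N) k →ₗ[ℂ] (Fin (B + 1) → ℂ) :=
    LinearMap.pi fun n => Eigenform.qCoeffLin N k (n : ℕ)
  have hL : Function.Injective L := by
    rw [← LinearMap.ker_eq_bot, LinearMap.ker_eq_bot']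
    intro f hf
    apply CuspForm.toModularFormₗ_injective
    rw [map_zero]
    apply ModularForm.sturm_bound_Gamma0
    intro n hn
    exact congrFun hf ⟨n, by omega⟩
  exact FiniteDimensional.of_injective L hL

end Gamma0

end

end Fermat.Agent.Genus
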