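import Fermat.Agent.Genus.Vander
import Fermat.Agent.Period.Main

/-!
# S20 from the lower bound
-/

set_option autoImplicit false

open UpperHalfPlane CongruenceSubgroup
open scoped MatrixGroups

namespace Fermat.Agent.Genus

open Fermat.Agent.Gam0

theorem dim_eq_of_lb (N : ℕ) [NeZero N]
    (lb : (Nat.card (SL(2, ℤ) ⧸ Gamma0 N) : ℤ) + 2
      - Nat.card (MulAction.orbitRel.Quotient (Subgroup.zpowers ModularGroup.S)
          (SL(2, ℤ) ⧸ Gamma0 N))
      - Nat.card (MulAction.orbitRel.Quotient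
          (Subgroup.zpowers (ModularGroup.S * ModularGroup.T)) (SL(2, ℤ) ⧸ Gamma0 N))
      - Nat.card (MulAction.orbitRel.Quotient (Subgroup.zpowers ModularGroup.T)
          (SL(2, ℤ) ⧸ Gamma0 N))
      ≤ 2 * Module.finrank ℂ (CuspForm (Gamma0 N) 2)) :
    (Module.finrank ℂ (CuspForm (CongruenceSubgroup.Gamma0 N) 2) : ℚ) =
      ModularCurve.genusFormula N := by
  have h1 := Period.two_mul_finrank_cuspForm_le N
  have h2 := genusFormula_eq' N
  have e1 : Period.orb ModularGroup.S (SL(2, ℤ) ⧸ Gamma0 N) =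
    Nat.card (MulAction.orbitRel.Quotient (Subgroup.zpowers ModularGroup.S)
          (SL(2, ℤ) ⧸ Gamma0 N)) := rfl
  have e2 : Period.orb (ModularGroup.S * ModularGroup.T) (SL(2, ℤ) ⧸ Gamma0 N) =
    Nat.card (MulAction.orbitRel.Quotient (Subgroup.zpowers (ModularGroup.S * ModularGroup.T))
          (SL(2, ℤ) ⧸ Gamma0 N)) := rfl
  have e3 : Period.orb ModularGroup.T (SL(2, ℤ) ⧸ Gamma0 N) =
    Nat.card (MulAction.orbitRel.Quotient (Subgroup.zpowers ModularGroup.T)
          (SL(2, ℤ) ⧸ Gamma0 N)) := rfl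
  rw [e1, e2, e3] at h1
  have h3 : (2 * Module.finrank ℂ (CuspForm (Gamma0 N) 2) : ℤ) =
    (Nat.card (SL(2, ℤ) ⧸ Gamma0 N) : ℤ) + 2
      - Nat.card (MulAction.orbitRel.Quotient (Subgroup.zpowers ModularGroup.S)
          (SL(2, ℤ) ⧸ Gamma0 N))
      - Nat.card (MulAction.orbitRel.Quotient
          (Subgroup.zpowers (ModularGroup.S * ModularGroup.T)) (SL(2, ℤ) ⧸ Gamma0 N))
      - Nat.card (MulAction.orbitRel.Quotient (Subgroup.zpowers ModularGroup.T)
          (SL(2, ℤ) ⧸ Gamma0 N)) := by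
    omega
  have h4 := congrArg (Int.cast : ℤ → ℚ) h3
  push_cast at h4
  linarith

end Fermat.Agent.Genus
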