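import Fermat.Agent.Genus.ConstTerm

/-!
# Assembly of the lower bound for `dim S₂(Γ₀(N))`
-/

set_option autoImplicit false

open UpperHalfPlane ModularForm ModularFormClass MatrixGroups EisensteinSeries Filter
open Matrix.SpecialLinearGroup CongruenceSubgroup
open scoped Manifold MatrixGroups ModularForm Topology

namespace Fermat.Agent.Genus

open Fermat.Agent.LevelOne Fermat.Agent.GenusLB Fermat.Agent.Gam0 Fermat.Agent.IntStr

noncomputable section

section General

variable {X : Type} [MulAction SL(2, ℤ) X] {k l : ℤ} {F G : X → ℍ → ℂ}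

/-- Values of `X`-forms at a point fixed by `γ` are eigenvectors. -/
theorem value_mem_eig (hF : IsXForm k F) (γ : SL(2, ℤ)) (τ : ℍ) (hτ : γ • τ = τ) :
    (fun x => F x τ) ∈ eig (Y := X) γ (denom γ τ ^ k) := by
  rw [mem_eig]
  intro x
  have h1 := congrFun (hF.slash γ (γ • x)) τ
  rw [inv_smul_smul, SL_slash_apply, hτ] at h1
  have h2 : (denom γ τ) ≠ 0 := denom_ne_zero _ _
  rw [← h1, mul_left_comm, ← zpow_add₀ h2, add_neg_cancel, zpow_zero, mul_one]

omit [MulAction SL(2, ℤ) X] in
theorem linearIndependent_value [Fintype X] [DecidableEq X] (f : X → X → ℍ → ℂ) (τ : ℍ)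
    (hdet : (Matrix.of fun x j => f j x τ).det ≠ 0) :
    LinearIndependent ℂ (fun j : X => fun x : X => f j x τ) := by
  have h := Matrix.linearIndependent_cols_of_det_ne_zero hdet
  exact h

omit [MulAction SL(2, ℤ) X] in
theorem card_filter_le [Fintype X] (v : X → X → ℂ) (hv : LinearIndependent ℂ v)
    (E : Submodule ℂ (X → ℂ)) (P : X → Prop) [DecidablePred P] (hP : ∀ j, P j → v j ∈ E) :
    (Finset.univ.filter P).card ≤ Module.finrank ℂ E := by
  classical
  let w : {j // P j} → E := fun j => ⟨v j.1, hP j.1 j.2⟩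
  have hw : LinearIndependent ℂ w := by
    apply LinearIndependent.of_comp E.subtype
    exact hv.comp (fun j : {j // P j} => j.1) Subtype.val_injective
  have := hw.fintype_card_le_finrank
  rwa [Fintype.card_subtype] at this

/-- the point `i` -/
theorem S_smul_I : ModularGroup.S • UpperHalfPlane.I = UpperHalfPlane.I := by
  rw [UpperHalfPlane.modular_S_smul]
  ext
  simp

theorem denom_S_I : denom (ModularGroup.S : SL(2, ℤ)) UpperHalfPlane.I = Complex.I := by
  rw [ModularGroup.denom_apply]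
  simp [ModularGroup.S]

/-- the point `ρ` -/
def rho : ℍ := ⟨-1 / 2 + (Real.sqrt 3 / 2 : ℝ) * Complex.I, by
  simp⟩

theorem rho_eq : (rho : ℂ) ^ 2 + rho + 1 = 0 := by
  show (-1 / 2 + (Real.sqrt 3 / 2 : ℝ) * Complex.I : ℂ) ^ 2
    + (-1 / 2 + (Real.sqrt 3 / 2 : ℝ) * Complex.I) + 1 = 0
  have h3 : ((Real.sqrt 3 : ℝ) : ℂ) ^ 2 = 3 := by
    rw [← Complex.ofReal_pow, Real.sq_sqrt (by norm_num)]
    norm_num
  push_cast
  linear_combination (Complex.I ^ 2 / 4) * h3 + (3 / 4 : ℂ) * Complex.I_sq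

theorem denom_ST (τ : ℍ) : denom ((ModularGroup.S * ModularGroup.T : SL(2, ℤ))) τ = τ + 1 := by
  rw [ModularGroup.denom_apply]
  have h1 : (ModularGroup.S * ModularGroup.T) 1 0 = 1 := by decide
  have h2 : (ModularGroup.S * ModularGroup.T) 1 1 = 1 := by decide
  rw [h1, h2]
  simp

theorem ST_smul_rho : (ModularGroup.S * ModularGroup.T) • rho = rho := by
  apply UpperHalfPlane.ext
  rw [UpperHalfPlane.coe_specialLinearGroup_apply]
  have h1 : (ModularGroup.S * ModularGroup.T) 1 0 = 1 := by decide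
  have h2 : (ModularGroup.S * ModularGroup.T) 1 1 = 1 := by decide
  have h3 : (ModularGroup.S * ModularGroup.T) 0 0 = 0 := by decide
  have h4 : (ModularGroup.S * ModularGroup.T) 0 1 = -1 := by decide
  rw [h1, h2, h3, h4]
  have h := rho_eq
  have h5 : (rho : ℂ) + 1 ≠ 0 := by
    intro h6
    have h7 : (rho : ℂ) = -1 := by linear_combination h6
    rw [h7] at h
    norm_num at h
  simp only [algebraMap_int_eq, eq_intCast, Int.cast_zero, Int.cast_neg, Int.cast_one]
  push_cast
  rw [zero_mul, zero_add, one_mul, div_eq_iff (by simpa using h5)]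
  linear_combination -h

theorem rho_cube : (rho : ℂ) ^ 3 = 1 := by
  linear_combination ((rho : ℂ) - 1) * rho_eq

theorem denom_rho_pow (m : ℤ) (r : ℂ) (hr : r = (rho : ℂ) + 1) : r ^ (6 * m) = 1 := by
  have h1 : r ^ 6 = 1 := by
    have h2 : r = - (rho : ℂ) ^ 2 := by rw [hr]; linear_combination rho_eq
    rw [h2]
    linear_combination ((rho : ℂ) ^ 9 + (rho : ℂ) ^ 6 + (rho : ℂ) ^ 3 + 1) * rho_cube
  rw [zpow_mul]
  norm_cast
  rw [h1, one_zpow]

/-- The lower bound `2 #{k_j = 2} ≥ n + #orb T - #orb S - #orb ST`. -/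
theorem weight_two_count [Fintype X] [DecidableEq X]
    (hneg : ∀ x : X, (-1 : SL(2, ℤ)) • x = x) (k : X → ℤ) (f : X → X → ℍ → ℂ)
    (hf : ∀ j, IsXForm (k j) (f j)) (hk : ∀ j, 0 ≤ k j ∧ Even (k j))
    (hdet : ∀ τ, (Matrix.of fun x j => f j x τ).det ≠ 0)
    (hsum : ∑ j, k j = 6 * ((Fintype.card X : ℤ) - Nat.card (MulAction.orbitRel.Quotient
      (Subgroup.zpowers (ModularGroup.T : SL(2, ℤ))) X))) :
    Fintype.card X + Nat.card (MulAction.orbitRel.Quotient
      (Subgroup.zpowers (ModularGroup.T : SL(2, ℤ))) X) ≤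
    Nat.card (MulAction.orbitRel.Quotient (Subgroup.zpowers (ModularGroup.S : SL(2, ℤ))) X) +
    Nat.card (MulAction.orbitRel.Quotient
      (Subgroup.zpowers (ModularGroup.S * ModularGroup.T : SL(2, ℤ))) X) +
    2 * (Finset.univ.filter fun j => k j = 2).card := by
  classical
  set γ : SL(2, ℤ) := ModularGroup.S * ModularGroup.T with hγ
  apply numerics _ _ _ _ k rfl (fun j => (hk j).1) (fun j => (hk j).2)
  · refine (card_filter_le _ (linearIndependent_value f UpperHalfPlane.I (hdet _))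
      (eig (Y := X) (ModularGroup.S : SL(2, ℤ)) 1) _ ?_).trans
      (finrank_eig_le (Y := X) _ 1 one_ne_zero)
    intro j hj
    have h1 := value_mem_eig (hf j) ModularGroup.S UpperHalfPlane.I S_smul_I
    obtain ⟨m, hm⟩ : (4 : ℤ) ∣ k j := Int.dvd_of_emod_eq_zero hj
    rw [denom_S_I, hm, zpow_mul] at h1
    have h2 : (Complex.I : ℂ) ^ (4 : ℤ) = 1 := by
      norm_cast; exact Complex.I_pow_four
    rwa [h2, one_zpow] at h1
  · refine (card_filter_le _ (linearIndependent_value f rho (hdet _))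
      (eig (Y := X) γ 1) _ ?_).trans (finrank_eig_le (Y := X) _ 1 one_ne_zero)
    intro j hj
    have h1 := value_mem_eig (hf j) γ rho ST_smul_rho
    obtain ⟨m, hm⟩ : (6 : ℤ) ∣ k j := Int.dvd_of_emod_eq_zero hj
    rw [hγ, denom_ST, hm, denom_rho_pow m _ rfl] at h1
    exact h1
  · have h3 : (Finset.univ.filter fun j => k j % 6 = 4).card ≤
        Module.finrank ℂ (eig (Y := X) γ ((rho : ℂ) ^ 2)) := by
      refine card_filter_le _ (linearIndependent_value f rho (hdet _)) _ _ ?_
      intro j hj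
      have h1 := value_mem_eig (hf j) γ rho ST_smul_rho
      have hm : k j = 6 * (k j / 6) + 4 := by omega
      have h5 : (rho : ℂ) + 1 ≠ 0 := by
        intro h6
        have h7 : (rho : ℂ) = -1 := by linear_combination h6
        have h := rho_eq
        rw [h7] at h
        norm_num at h
      rw [hγ, denom_ST, hm, zpow_add₀ h5, denom_rho_pow _ _ rfl, one_mul] at h1
      have h8 : ((rho : ℂ) + 1) ^ (4 : ℤ) = (rho : ℂ) ^ 2 := by
        norm_cast
        have h2 : (rho : ℂ) + 1 = - (rho : ℂ) ^ 2 := by linear_combination rho_eq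
        rw [h2]
        linear_combination ((rho : ℂ) ^ 5 + (rho : ℂ) ^ 2) * rho_cube
      rwa [h8] at h1
    have h0 : (rho : ℂ) ≠ 0 := UpperHalfPlane.ne_zero rho
    have hne : (rho : ℂ) ^ 2 ≠ 1 := by
      intro h6
      have h9 := rho_cube
      have h7 : (rho : ℂ) = 1 := by
        have : (rho : ℂ) ^ 3 = rho * (rho : ℂ) ^ 2 := by ring
        rw [h9, h6, mul_one] at this
        exact this.symm
      have h := rho_eq
      rw [h7] at h
      norm_num at h
    have h4 := finrank_eig_add_le (Y := X) γ ((rho : ℂ) ^ 2) (pow_ne_zero 2 h0) hne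
    have h5 := card_orbits_zpowers_prime (Y := X) γ 3 Nat.prime_three (fun y => by
      have : γ ^ 3 = -1 := by rw [hγ]; decide
      rw [this, hneg])
    rw [Nat.card_eq_fintype_card (α := X)] at h5
    omega
  · omega

end General

end

end Fermat.Agent.Genus
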