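import Fermat.Agent.Genus.Lower

/-!
# The lower bound for `dim S₂(Γ₀(N))`, from a good tuple of `X`-forms
-/

set_option autoImplicit false

open UpperHalfPlane ModularForm ModularFormClass MatrixGroups EisensteinSeries Filter
open Matrix.SpecialLinearGroup CongruenceSubgroup
open scoped Manifold MatrixGroups ModularForm Topology

namespace Fermat.Agent.Genus

open Fermat.Agent.LevelOne Fermat.Agent.GenusLB Fermat.Agent.Gam0 Fermat.Agent.IntStr

noncomputable section

variable {N : ℕ} [NeZero N]

instance : Nonempty (Gam0.X N) := ⟨QuotientGroup.mk 1⟩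

/-- number of weight two members of a tuple with nonvanishing determinant -/
theorem card_weight_two_lt [Fintype (Gam0.X N)] [DecidableEq (Gam0.X N)]
    (k : Gam0.X N → ℤ) (f : Gam0.X N → Gam0.X N → ℍ → ℂ)
    (hf : ∀ j, IsXForm (k j) (f j)) (τ : ℍ)
    (hdet : (Matrix.of fun x j => f j x τ).det ≠ 0) :
    (Finset.univ.filter fun j => k j = 2).card <
      Module.finrank ℂ (CuspForm (Gamma0 N) 2) +
        Nat.card (@MulAction.orbitRel.Quotient
          (Subgroup.zpowers (ModularGroup.T : SL(2, ℤ))) (Gam0.X N) _ Subgroup.instMulAction) := by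
  classical
  let J := {j : Gam0.X N // k j = 2}
  let F : J → XF (Gam0.X N) 2 := fun j => ⟨f j.1, by
    have := hf j.1
    rw [j.2] at this
    exact this⟩
  let Φ : (J → ℂ) →ₗ[ℂ] XF (Gam0.X N) 2 := Fintype.linearCombination ℂ F
  have hΦ : Function.Injective Φ := by
    have hli : LinearIndependent ℂ F := by
      let ev : XF (Gam0.X N) 2 →ₗ[ℂ] (Gam0.X N → ℂ) :=
        { toFun := fun G x => G.1 x τ
          map_add' := fun _ _ => rfl
          map_smul' := fun _ _ => rfl }
      apply LinearIndependent.of_comp ev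
      exact (linearIndependent_value f τ hdet).comp (fun j : J => j.1) Subtype.val_injective
    exact hli.fintypeLinearCombination_injective
  let Λ : (J → ℂ) →ₗ[ℂ] (Gam0.X N → ℂ) := (constTerm (Gam0.X N) 2).comp Φ
  have h1 := LinearMap.finrank_range_add_finrank_ker Λ
  rw [Module.finrank_fintype_fun_eq_card] at h1
  have h2 : Module.finrank ℂ (LinearMap.range Λ) ≤
      Module.finrank ℂ (LinearMap.range (constTerm (Gam0.X N) 2)) :=
    Submodule.finrank_mono (LinearMap.range_comp_le_range _ _)
  have h3 := finrank_range_constTerm_lt (X := Gam0.X N)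
  have h4 : Module.finrank ℂ (LinearMap.ker Λ) ≤
      Module.finrank ℂ (CuspForm (Gamma0 N) 2) := by
    let Ψ : LinearMap.ker Λ →ₗ[ℂ] LinearMap.ker (constTerm (Gam0.X N) 2) :=
      (Φ.domRestrict (LinearMap.ker Λ)).codRestrict _ (fun c => by
        rw [LinearMap.mem_ker]
        exact LinearMap.mem_ker.mp c.2)
    have hΨ : Function.Injective Ψ := by
      intro a b hab
      have : Φ a.1 = Φ b.1 := congrArg Subtype.val hab
      exact Subtype.ext (hΦ this)
    have := LinearMap.finrank_le_finrank_of_injective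
      (f := (toCuspFormLin N 2).comp Ψ) ((toCuspFormLin_injective 2).comp hΨ)
    exact this
  have h5 : Fintype.card J = (Finset.univ.filter fun j => k j = 2).card :=
    Fintype.card_subtype _
  omega

/-- The lower bound, assuming a good tuple of `X`-forms. -/
theorem lb_of_tuple [Fintype (Gam0.X N)] [DecidableEq (Gam0.X N)]
    (k : Gam0.X N → ℤ) (f : Gam0.X N → Gam0.X N → ℍ → ℂ)
    (hf : ∀ j, IsXForm (k j) (f j)) (hk : ∀ j, 0 ≤ k j ∧ Even (k j))
    (hdet : ∀ τ, (Matrix.of fun x j => f j x τ).det ≠ 0)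
    (hsum : ∑ j, k j = 6 * ((Fintype.card (Gam0.X N) : ℤ) - Nat.card
      (@MulAction.orbitRel.Quotient
        (Subgroup.zpowers (ModularGroup.T : SL(2, ℤ))) (Gam0.X N) _ Subgroup.instMulAction))) :
    (Nat.card (SL(2, ℤ) ⧸ Gamma0 N) : ℤ) + 2
      - Nat.card (MulAction.orbitRel.Quotient (Subgroup.zpowers ModularGroup.S)
          (SL(2, ℤ) ⧸ Gamma0 N))
      - Nat.card (MulAction.orbitRel.Quotient
          (Subgroup.zpowers (ModularGroup.S * ModularGroup.T)) (SL(2, ℤ) ⧸ Gamma0 N))
      - Nat.card (MulAction.orbitRel.Quotient (Subgroup.zpowers ModularGroup.T)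
          (SL(2, ℤ) ⧸ Gamma0 N))
      ≤ 2 * Module.finrank ℂ (CuspForm (Gamma0 N) 2) := by
  have h1 := weight_two_count (X := Gam0.X N) neg_one_smul k f hf hk hdet hsum
  have h2 := card_weight_two_lt k f hf UpperHalfPlane.I (hdet _)
  have h3 : Fintype.card (Gam0.X N) = Nat.card (SL(2, ℤ) ⧸ Gamma0 N) :=
    Nat.card_eq_fintype_card.symm
  rw [h3] at h1
  have e1 : Nat.card (@MulAction.orbitRel.Quotient
        (Subgroup.zpowers (ModularGroup.T : SL(2, ℤ))) (Gam0.X N) _ Subgroup.instMulAction)
      = Nat.card (MulAction.orbitRel.Quotient (Subgroup.zpowers ModularGroup.T)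
          (SL(2, ℤ) ⧸ Gamma0 N)) := rfl
  have e2 : Nat.card (@MulAction.orbitRel.Quotient
        (Subgroup.zpowers (ModularGroup.S : SL(2, ℤ))) (Gam0.X N) _ Subgroup.instMulAction)
      = Nat.card (MulAction.orbitRel.Quotient (Subgroup.zpowers ModularGroup.S)
          (SL(2, ℤ) ⧸ Gamma0 N)) := rfl
  have e3 : Nat.card (@MulAction.orbitRel.Quotient
        (Subgroup.zpowers (ModularGroup.S * ModularGroup.T : SL(2, ℤ))) (Gam0.X N) _
          Subgroup.instMulAction)
      = Nat.card (MulAction.orbitRel.Quotient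
          (Subgroup.zpowers (ModularGroup.S * ModularGroup.T)) (SL(2, ℤ) ⧸ Gamma0 N)) := rfl
  rw [e1] at h1 h2
  rw [e2, e3] at h1
  omega

end

end Fermat.Agent.Genus
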