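import Fermat.Agent.Genus.LowerMain
import Fermat.Agent.IntStr.E4N

/-!
# Existence of `#X` independent `X`-forms for `X = SL(2, ℤ) ⧸ Γ₀(N)`
-/

set_option autoImplicit false

open UpperHalfPlane ModularForm ModularFormClass MatrixGroups EisensteinSeries Filter
open Matrix.SpecialLinearGroup CongruenceSubgroup
open scoped Manifold MatrixGroups ModularForm Topology

namespace Fermat.Agent.Genus

open Fermat.Agent.LevelOne Fermat.Agent.GenusLB Fermat.Agent.Gam0 Fermat.Agent.IntStr

noncomputable section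

variable {N : ℕ} [NeZero N]

omit [NeZero N] in
/-- a modular form on `Γ₀(N)` gives an `X`-form -/
theorem isXForm_tr {k : ℤ} {f : ℍ → ℂ} (hf : IsMF (Gamma0 N) k f) :
    IsXForm (X := Gam0.X N) k (fun x => tr (Gamma0 N) k f x) where
  mdiff x := tr_holo hf x
  bdd _ := hf.bdd _
  slash γ x := tr_slash hf.slash γ x

theorem exists_tuple (N : ℕ) [NeZero N] [Fintype (Gam0.X N)] [DecidableEq (Gam0.X N)] :
    ∃ (k : Gam0.X N → ℤ) (f : Gam0.X N → Gam0.X N → ℍ → ℂ),
      (∀ j, IsXForm (k j) (f j)) ∧ ∃ τ, (Matrix.of fun x j => f j x τ).det ≠ 0 := by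
  let e : Gam0.X N ≃ Fin (Fintype.card (Gam0.X N)) := Fintype.equivFin _
  let v : Gam0.X N → ℍ → ℂ := fun x => tr (Gamma0 N) 4 (E4N N) x
  have hg := E4N_mf N
  have hvh : ∀ x, MDiff (v x) := fun x => tr_holo hg x
  have hv : Function.Injective v := by
    intro i j hij
    simp only [v, tr] at hij
    have h1 : E4N N ∣[(4 : ℤ)] ((i.out)⁻¹ * j.out) = E4N N := by
      rw [SlashAction.slash_mul, hij, ← SlashAction.slash_mul, inv_mul_cancel,
        SlashAction.slash_one]
    have h2 := E4N_inj N _ h1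
    have h3 : ((i.out : SL(2, ℤ)) : Gam0.X N) = ((j.out : SL(2, ℤ)) : Gam0.X N) :=
      QuotientGroup.eq.mpr h2
    rwa [QuotientGroup.out_eq', QuotientGroup.out_eq'] at h3
  refine ⟨fun j => ((e j : ℕ) : ℤ) * 4, fun j x => tr (Gamma0 N) (((e j : ℕ) : ℤ) * 4)
    (E4N N ^ (e j : ℕ)) x, fun j => isXForm_tr (hg.pow _), ?_⟩
  have hentry : ∀ j x τ, tr (Gamma0 N) (((e j : ℕ) : ℤ) * 4) (E4N N ^ (e j : ℕ)) x τ
      = v x τ ^ (e j : ℕ) := by
    intro j x τ
    rw [tr_pow]
    rfl
  let w : Fin (Fintype.card (Gam0.X N)) → ℍ → ℂ := fun i => v (e.symm i)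
  have hdet : ∀ τ, (Matrix.of fun (x j : Gam0.X N) =>
      tr (Gamma0 N) (((e j : ℕ) : ℤ) * 4) (E4N N ^ (e j : ℕ)) x τ).det =
      (Matrix.vandermonde fun i => w i τ).det := by
    intro τ
    rw [← Matrix.det_reindex_self e]
    congr 1
    ext i j
    simp only [Matrix.reindex_apply, Matrix.submatrix_apply, Matrix.of_apply,
      Matrix.vandermonde_apply]
    rw [hentry]
    simp [w]
  -- the Vandermonde determinant, as a function, is nonzero
  have hV : (∏ i : Fin (Fintype.card (Gam0.X N)), ∏ j ∈ Finset.Ioi i, (w j - w i)) ≠ 0 := by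
    intro h0
    rw [UpperHalfPlane.prod_eq_zero_iff] at h0
    · obtain ⟨i, _, hi⟩ := h0
      rw [UpperHalfPlane.prod_eq_zero_iff] at hi
      · obtain ⟨j, hj, hij⟩ := hi
        have := e.symm.injective (hv (sub_eq_zero.mp hij))
        rw [Finset.mem_Ioi] at hj
        exact absurd this hj.ne'
      · exact fun j _ => (hvh _).sub (hvh _)
    · refine fun i _ => ?_
      exact MDifferentiable.prod fun j _ => (hvh _).sub (hvh _)
  obtain ⟨τ, hτ⟩ := Function.ne_iff.mp hV
  refine ⟨τ, ?_⟩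
  rw [hdet, Matrix.det_vandermonde]
  intro h0
  apply hτ
  rw [Finset.prod_apply, Pi.zero_apply, ← h0]
  refine Finset.prod_congr rfl fun i _ => ?_
  rw [Finset.prod_apply]
  rfl

end

end Fermat.Agent.Genus
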